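import Mathlib.Analysis.Complex.BorelCaratheodory
import Mathlib.Analysis.Complex.AbsMax
import Mathlib.Analysis.Complex.Polynomial.Basic
import Mathlib.FieldTheory.KummerExtension
import Mathlib.RingTheory.RootsOfUnity.Complex
import Mathlib.Analysis.SpecialFunctions.Complex.LogDeriv
import Fermat.Agent.Discrepancy.ErdosTuran

/-!
# The arguments of the roots of a polynomial

The polynomial with roots `z / |z|` is bounded by `exp M` on the circle, so the one with the roots
`(z / |z|) ^ k` is bounded by `exp (k M)` there; the inequality of Borel and Carathéodory for its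
logarithm bounds the power sum by `2 k M`, and the inequality of Erdős and Turán counts the roots.
-/

set_option autoImplicit false

noncomputable section

open Finset Polynomial Filter Topology Metric

namespace Fermat.Agent.RootAngles

/-- A polynomial `∏ (1 - d j w)` bounded by `exp A` on the circle has `|∑ d j| ≤ 2 A`. -/
theorem norm_sum_le_of_bound {n : ℕ} (d : ℕ → ℂ) (hd : ∀ j, ‖d j‖ = 1) {A : ℝ} (hA : 0 < A)
    (hR : ∀ w : ℂ, ‖w‖ = 1 → ‖∏ j ∈ range n, (1 - d j * w)‖ ≤ Real.exp A) :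
    ‖∑ j ∈ range n, d j‖ ≤ 2 * A := by
  have hne : ∀ j, ∀ w ∈ ball (0 : ℂ) 1, 1 - d j * w ∈ Complex.slitPlane := fun j w hw => by
    rw [sub_eq_add_neg]
    exact Complex.mem_slitPlane_of_norm_lt_one (by simpa [norm_mul, hd j] using hw)
  set f : ℂ → ℂ := fun w => ∑ j ∈ range n, Complex.log (1 - d j * w) with hf
  have hdiff : DifferentiableOn ℂ f (ball 0 1) := DifferentiableOn.fun_sum fun j _ => fun w hw =>
    ((((differentiableAt_id (𝕜 := ℂ) (x := w)).const_mul (d j)).const_sub 1).clog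
      (hne j w hw)).differentiableWithinAt
  have hmaps : Set.MapsTo f (ball 0 1) {z | z.re ≤ A} := fun w hw => by
    have hbound : ‖∏ j ∈ range n, (1 - d j * w)‖ ≤ Real.exp A := by
      refine Complex.norm_le_of_forall_mem_frontier_norm_le (U := ball (0 : ℂ) 1)
        (f := fun w => ∏ j ∈ range n, (1 - d j * w)) isBounded_ball ?_ (fun z hz => ?_)
        (subset_closure hw)
      · exact (Differentiable.fun_finsetProd fun j _ =>
          (differentiable_id.const_mul (d j)).const_sub 1).diffContOnCl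
      · rw [frontier_ball _ one_ne_zero, mem_sphere_zero_iff_norm] at hz
        exact hR z hz
    have hpos : ∀ j ∈ range n, (‖1 - d j * w‖ : ℝ) ≠ 0 := fun j _ =>
      norm_ne_zero_iff.2 (Complex.slitPlane_ne_zero (hne j w hw))
    show (f w).re ≤ A
    simp only [hf, Complex.re_sum, Complex.log_re]
    rw [← Real.log_prod hpos, ← norm_prod, ← Real.log_exp A]
    have hprodpos : (0 : ℝ) < ∏ j ∈ range n, ‖1 - d j * w‖ :=
      Finset.prod_pos fun j hj => lt_of_le_of_ne (norm_nonneg _) (hpos j hj).symm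
    rw [← norm_prod] at hprodpos
    exact Real.log_le_log hprodpos hbound
  have hf0 : f 0 = 0 := by simp [hf]
  have hder : HasDerivAt f (∑ j ∈ range n, -d j) 0 := by
    refine HasDerivAt.fun_sum fun j _ => ?_
    have h1 : HasDerivAt (fun w => 1 - d j * w) (-(d j * 1)) 0 :=
      ((hasDerivAt_id (0 : ℂ)).const_mul (d j)).const_sub 1
    simpa using h1.clog (hne j 0 (mem_ball_self one_pos))
  have hslope := hder.tendsto_slope.norm
  have hlim : Tendsto (fun w : ℂ => 2 * A / (1 - ‖w‖)) (𝓝[≠] 0) (𝓝 (2 * A)) := by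
    have h : ContinuousAt (fun w : ℂ => 2 * A / (1 - ‖w‖)) 0 :=
      (continuousAt_const.div (continuousAt_const.sub continuous_norm.continuousAt) (by simp))
    have h' := h.tendsto
    simp only [norm_zero, sub_zero, div_one] at h'
    exact h'.mono_left nhdsWithin_le_nhds
  have hle := le_of_tendsto_of_tendsto hslope hlim ?_
  · rwa [Finset.sum_neg_distrib, norm_neg] at hle
  filter_upwards [self_mem_nhdsWithin,
    nhdsWithin_le_nhds (ball_mem_nhds (0 : ℂ) one_pos)] with w hw hwb
  have hB := Complex.borelCaratheodory_zero hA hdiff hmaps one_pos hwb hf0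
  rw [slope_def_field, hf0, sub_zero, sub_zero, norm_div,
    div_le_iff₀ (norm_pos_iff.2 hw)]
  exact hB.trans_eq (by ring)

/-- The direction. -/
def dir (z : ℂ) : ℂ := z / (‖z‖ : ℂ)

theorem norm_dir {z : ℂ} (hz : z ≠ 0) : ‖dir z‖ = 1 := by simp [dir, hz]

/-- On the circle the distance to a root dominates that to its direction. -/
theorem sq_dir_le {z u : ℂ} (hz : z ≠ 0) (hu : ‖u‖ = 1) :
    ‖z‖ * ‖u - dir z‖ ^ 2 ≤ ‖u - z‖ ^ 2 := by
  have hρ : 0 < ‖z‖ := norm_pos_iff.2 hz
  have hc := norm_dir hz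
  have hzc : z = (‖z‖ : ℂ) * dir z := by
    rw [dir, mul_div_cancel₀ _ (Complex.ofReal_ne_zero.2 hρ.ne')]
  generalize ‖z‖ = ρ at hρ hzc ⊢
  generalize dir z = c at hc hzc ⊢
  subst hzc
  have h1 : Complex.normSq u = 1 := by rw [Complex.normSq_eq_norm_sq, hu]; norm_num
  have h2 : Complex.normSq c = 1 := by rw [Complex.normSq_eq_norm_sq, hc]; norm_num
  simp only [← Complex.normSq_eq_norm_sq, Complex.normSq_apply, Complex.sub_re, Complex.sub_im,
    Complex.mul_re, Complex.mul_im, Complex.ofReal_re, Complex.ofReal_im] at h1 h2 ⊢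
  nlinarith [sq_nonneg (ρ - 1)]

/-- The length of a polynomial. -/
def len (P : ℂ[X]) : ℝ := ∑ i ∈ range (P.natDegree + 1), ‖P.coeff i‖

/-- The exponent in the theorem of Erdős and Turán. -/
def logRatio (P : ℂ[X]) : ℝ := Real.log (len P / Real.sqrt (‖P.coeff 0‖ * ‖P.leadingCoeff‖))

theorem exists_roots (P : ℂ[X]) :
    ∃ z : ℕ → ℂ, P.roots = (Multiset.range P.natDegree).map z := by
  classical
  have hcard : P.roots.card = P.natDegree :=
    (IsAlgClosed.splits P).natDegree_eq_card_roots.symm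
  refine ⟨fun i => P.roots.toList.getD i 0, ?_⟩
  rw [← hcard, ← Multiset.coe_range, Multiset.map_coe]
  conv_lhs => rw [← P.roots.coe_toList]
  congr 1
  refine List.ext_getElem (by simp) fun i h1 h2 => ?_
  simp [List.getElem?_eq_getElem h1]

variable {P : ℂ[X]} (h0 : P.coeff 0 ≠ 0)
include h0

theorem root_ne_zero {z : ℂ} (hz : z ∈ P.roots) : z ≠ 0 := fun e => h0 (by
  have := (mem_roots'.1 hz).2
  rwa [e, IsRoot, ← coeff_zero_eq_eval_zero] at this)

theorem denom_pos : 0 < Real.sqrt (‖P.coeff 0‖ * ‖P.leadingCoeff‖) :=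
  Real.sqrt_pos.2 (mul_pos (norm_pos_iff.2 h0)
    (norm_pos_iff.2 (leadingCoeff_ne_zero.2 fun e => h0 (by simp [e]))))

theorem logRatio_pos (hn : 0 < P.natDegree) : 0 < logRatio P := by
  refine Real.log_pos ((one_lt_div (denom_pos h0)).2 ?_)
  have hl : (0 : ℝ) < ‖P.leadingCoeff‖ :=
    norm_pos_iff.2 (leadingCoeff_ne_zero.2 fun e => h0 (by simp [e]))
  have hc : (0 : ℝ) < ‖P.coeff 0‖ := norm_pos_iff.2 h0
  have h : ‖P.coeff 0‖ + ‖P.leadingCoeff‖ ≤ len P := by
    refine le_trans (le_of_eq ?_) (Finset.sum_le_sum_of_subset_of_nonneg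
      (s := {0, P.natDegree}) ?_ fun i _ _ => norm_nonneg _)
    · rw [Finset.sum_pair hn.ne]
      rfl
    · intro i hi
      simp only [mem_insert, mem_singleton] at hi
      rw [mem_range]
      omega
  refine lt_of_lt_of_le ?_ h
  rw [Real.sqrt_lt' (by positivity)]
  nlinarith

/-- **The polynomial of the directions on the circle.** -/
theorem prod_dir_le {z : ℕ → ℂ}
    (hz : P.roots = (Multiset.range P.natDegree).map z) {u : ℂ} (hu : ‖u‖ = 1) :
    ∏ j ∈ range P.natDegree, ‖u - dir (z j)‖ ≤ Real.exp (logRatio P) := by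
  have hne : ∀ j ∈ range P.natDegree, z j ≠ 0 := fun j hj =>
    root_ne_zero h0 (by rw [hz]; exact Multiset.mem_map.2 ⟨j, by simpa using hj, rfl⟩)
  have hfac : ∀ x : ℂ, ‖P.eval x‖ = ‖P.leadingCoeff‖ * ∏ j ∈ range P.natDegree, ‖x - z j‖ :=
    fun x => by
      rw [(IsAlgClosed.splits P).eval_eq_prod_roots, norm_mul, hz, Multiset.map_map,
        ← norm_prod]
      rfl
  have hlen : ‖P.eval u‖ ≤ len P := by
    rw [eval_eq_sum_range]
    exact (norm_sum_le _ _).trans_eq (sum_congr rfl fun i _ => by simp [hu])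
  have hl : (0 : ℝ) < ‖P.leadingCoeff‖ :=
    norm_pos_iff.2 (leadingCoeff_ne_zero.2 fun e => h0 (by simp [e]))
  have hprod : ∏ j ∈ range P.natDegree, ‖z j‖ = ‖P.coeff 0‖ / ‖P.leadingCoeff‖ := by
    rw [coeff_zero_eq_eval_zero, hfac 0, mul_div_cancel_left₀ _ hl.ne']
    simp
  have hsq : (Real.sqrt (‖P.coeff 0‖ * ‖P.leadingCoeff‖) *
      ∏ j ∈ range P.natDegree, ‖u - dir (z j)‖) ^ 2 ≤ ‖P.eval u‖ ^ 2 := by
    rw [mul_pow, Real.sq_sqrt (by positivity), hfac u, mul_pow, ← Finset.prod_pow,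
      ← Finset.prod_pow]
    calc ‖P.coeff 0‖ * ‖P.leadingCoeff‖ * ∏ j ∈ range P.natDegree, ‖u - dir (z j)‖ ^ 2
        = ‖P.leadingCoeff‖ ^ 2 * ∏ j ∈ range P.natDegree, ‖z j‖ * ‖u - dir (z j)‖ ^ 2 := by
          rw [Finset.prod_mul_distrib, hprod]
          field_simp
      _ ≤ _ := by
          refine mul_le_mul_of_nonneg_left (Finset.prod_le_prod (fun j _ => by positivity)
            fun j hj => sq_dir_le (hne j hj) hu) (by positivity)
  have hlenpos : 0 < len P := lt_of_lt_of_le (norm_pos_iff.2 h0)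
    (Finset.single_le_sum (f := fun i => ‖P.coeff i‖) (fun i _ => norm_nonneg _)
      (mem_range.2 (Nat.succ_pos _)))
  rw [logRatio, Real.exp_log (div_pos hlenpos (denom_pos h0)), le_div_iff₀ (denom_pos h0), mul_comm]
  exact ((sq_le_sq₀ (mul_nonneg (Real.sqrt_nonneg _)
    (Finset.prod_nonneg fun j _ => norm_nonneg _)) (norm_nonneg _)).1 hsq).trans hlen

/-- **The power sums of the directions.** -/
theorem norm_sum_dir_pow_le (hn : 0 < P.natDegree) {z : ℕ → ℂ}
    (hz : P.roots = (Multiset.range P.natDegree).map z) {k : ℕ} (hk : 0 < k) :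
    ‖∑ j ∈ range P.natDegree, dir (z j) ^ k‖ ≤ 2 * (k * logRatio P) := by
  classical
  have hdir : ∀ j ∈ range P.natDegree, ‖dir (z j)‖ = 1 := fun j hj =>
    norm_dir (root_ne_zero h0 (by rw [hz]; exact Multiset.mem_map.2 ⟨j, by simpa using hj, rfl⟩))
  set d : ℕ → ℂ := fun j => if j ∈ range P.natDegree then dir (z j) ^ k else 1 with hd
  have hd' : ∀ j ∈ range P.natDegree, d j = dir (z j) ^ k := fun j hj => if_pos hj
  rw [← Finset.sum_congr rfl hd']
  refine norm_sum_le_of_bound d (fun j => ?_) (mul_pos (Nat.cast_pos.2 hk) (logRatio_pos h0 hn))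
    fun w hw => ?_
  · simp only [hd]
    split_ifs with hj
    · rw [norm_pow, hdir j hj, one_pow]
    · exact norm_one
  have hw0 : w ≠ 0 := fun e => by simp [e] at hw
  obtain ⟨v, hv⟩ := IsAlgClosed.exists_pow_nat_eq w⁻¹ hk
  have hv1 : ‖v‖ = 1 := by
    have := congrArg norm hv
    rw [norm_pow, norm_inv, hw, inv_one, pow_eq_one_iff_of_nonneg (norm_nonneg _) hk.ne'] at this
    exact this
  obtain ⟨ζ, hζ⟩ := (⟨_, Complex.isPrimitiveRoot_exp k hk.ne'⟩ : ∃ ζ : ℂ, IsPrimitiveRoot ζ k)
  calc ‖∏ j ∈ range P.natDegree, (1 - d j * w)‖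
      = ∏ j ∈ range P.natDegree, ∏ m ∈ range k, ‖ζ ^ m * v - dir (z j)‖ := by
        rw [norm_prod]
        refine Finset.prod_congr rfl fun j hj => ?_
        have h := congrArg (Polynomial.eval (dir (z j))) (X_pow_sub_C_eq_prod hζ hk hv)
        simp only [eval_sub, eval_pow, eval_X, eval_C, eval_prod] at h
        rw [hd' j hj, show 1 - dir (z j) ^ k * w = -w * (dir (z j) ^ k - w⁻¹) by field_simp; ring,
          norm_mul, norm_neg, hw, one_mul, h, norm_prod]
        exact Finset.prod_congr rfl fun m _ => norm_sub_rev _ _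
    _ = ∏ m ∈ range k, ∏ j ∈ range P.natDegree, ‖ζ ^ m * v - dir (z j)‖ := Finset.prod_comm
    _ ≤ ∏ _m ∈ range k, Real.exp (logRatio P) :=
        Finset.prod_le_prod (fun m _ => Finset.prod_nonneg fun j _ => norm_nonneg _) fun m _ =>
          prod_dir_le h0 hz (by rw [norm_mul, norm_pow, hζ.norm'_eq_one hk.ne', one_pow, hv1,
            one_mul])
    _ = Real.exp (k * logRatio P) := by
        rw [Finset.prod_const, card_range, ← Real.exp_nat_mul]

open scoped Classical in
/-- The number of roots with argument in `2 π [a, b)`. -/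
def angleCount (P : ℂ[X]) (a b : ℝ) : ℕ :=
  (P.roots.filter fun z => Int.fract (z.arg / (2 * Real.pi)) ∈ Set.Ico a b).card

/-- **The theorem of Erdős and Turán.** -/
theorem abs_angleCount_sub_le (hn : 0 < P.natDegree) {a b : ℝ} (ha : 0 ≤ a) (hab : a ≤ b)
    (hb : b ≤ 1) :
    |(angleCount P a b : ℝ) - (b - a) * P.natDegree| ≤
      104 * Real.sqrt (P.natDegree * logRatio P) := by
  classical
  obtain ⟨z, hz⟩ := exists_roots P
  set n := P.natDegree with hndef
  set M := logRatio P
  have hM : 0 < M := logRatio_pos h0 hn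
  set x : ℕ → ℝ := fun j => (z j).arg / (2 * Real.pi) with hx
  have hcount : angleCount P a b = FA.Discrepancy.countIco x n a b := by
    rw [angleCount, hz, Multiset.filter_map, Multiset.card_map]
    rfl
  have hexp : ∀ h ∈ Icc 1 (⌊Real.sqrt (n / M)⌋₊),
      FA.Discrepancy.expMean x n h / h ≤ 2 * M / n := fun h hh => by
    have hh1 := (mem_Icc.1 hh).1
    have e : ∀ j ∈ range n, FA.ThreePrimes.eAdd ((h : ℝ) * x j) = dir (z j) ^ h := fun j hj => by
      have hz0 : z j ≠ 0 :=
        root_ne_zero h0 (by rw [hz]; exact Multiset.mem_map.2 ⟨j, by simpa using hj, rfl⟩)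
      have hdir : dir (z j) = Complex.exp ((z j).arg * Complex.I) := by
        rw [dir, div_eq_iff (by simpa using hz0)]
        exact ((mul_comm _ _).trans (Complex.norm_mul_exp_arg_mul_I _)).symm
      rw [hdir, ← Complex.exp_nat_mul, FA.ThreePrimes.eAdd]
      congr 1
      simp only [hx]
      push_cast
      field_simp
    rw [FA.Discrepancy.expMean, Finset.sum_congr rfl e, div_div,
      div_le_div_iff₀ (by positivity) (by positivity)]
    have := norm_sum_dir_pow_le h0 hn hz (k := h) hh1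
    have hnn : (0 : ℝ) ≤ n := Nat.cast_nonneg _
    nlinarith
  set H := ⌊Real.sqrt (n / M)⌋₊
  have h := FA.Discrepancy.erdos_turan (x := x) (N := n) hn H ha hab hb
  rw [← hcount] at h
  have hs : ∑ h ∈ Icc 1 H, FA.Discrepancy.expMean x n h / h ≤ H * (2 * M / n) := by
    refine (Finset.sum_le_sum hexp).trans_eq ?_
    rw [Finset.sum_const, Nat.card_Icc, nsmul_eq_mul, Nat.add_sub_cancel]
  have hnR : (0 : ℝ) < n := Nat.cast_pos.2 hn
  have hsq : Real.sqrt (n / M) * M = Real.sqrt (n * M) := by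
    rw [Real.sqrt_div hnR.le, Real.sqrt_mul hnR.le]
    field_simp
    rw [Real.sq_sqrt hM.le]
  have hH1 : (H : ℝ) ≤ Real.sqrt (n / M) := Nat.floor_le (Real.sqrt_nonneg _)
  have hH2 : Real.sqrt (n / M) < H + 1 := Nat.lt_floor_add_one _
  have hbig : (n : ℝ) / (H + 1) ≤ Real.sqrt (n * M) := by
    rw [div_le_iff₀ (by positivity), ← hsq]
    have : (n : ℝ) = Real.sqrt (n / M) * Real.sqrt (n / M) * M := by
      rw [Real.mul_self_sqrt (by positivity), div_mul_cancel₀ _ hM.ne']
    nlinarith [Real.sqrt_nonneg ((n : ℝ) / M), mul_le_mul_of_nonneg_left hH2.le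
      (mul_nonneg (Real.sqrt_nonneg ((n : ℝ) / M)) hM.le)]
  have hsmall : (H : ℝ) * M ≤ Real.sqrt (n * M) := by
    rw [← hsq]
    exact mul_le_mul_of_nonneg_right hH1 hM.le
  calc |(angleCount P a b : ℝ) - (b - a) * n|
      = |(angleCount P a b : ℝ) / n - (b - a)| * n := by
        rw [show (angleCount P a b : ℝ) - (b - a) * n = ((angleCount P a b : ℝ) / n - (b - a)) * n
          by field_simp, abs_mul, abs_of_pos hnR]
    _ ≤ (100 / ((H : ℝ) + 1) + 2 * (H * (2 * M / n))) * n :=
        mul_le_mul_of_nonneg_right (by linarith) hnR.le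
    _ = 100 * (n / ((H : ℝ) + 1)) + 4 * (H * M) := by field_simp; ring
    _ ≤ 104 * Real.sqrt (n * M) := by linarith

/-- The roots with one argument. -/
theorem single_angle_le (hn : 0 < P.natDegree) {a : ℝ} (ha : 0 ≤ a) (ha1 : a < 1) {S : Multiset ℂ}
    (hS : S ≤ P.roots) (hang : ∀ z ∈ S, Int.fract (z.arg / (2 * Real.pi)) = a) :
    (S.card : ℝ) ≤ 104 * Real.sqrt (P.natDegree * logRatio P) := by
  classical
  refine le_of_forall_pos_le_add fun η hη => ?_
  have hnR : (0 : ℝ) < P.natDegree := Nat.cast_pos.2 hn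
  set ε := min (1 - a) (η / P.natDegree)
  have hε : 0 < ε := lt_min (by linarith) (div_pos hη hnR)
  have hle : S.card ≤ angleCount P a (a + ε) := by
    refine Multiset.card_le_card (le_trans (le_of_eq ?_) (Multiset.filter_le_filter _ hS))
    exact (Multiset.filter_eq_self.2 fun z hz =>
      ⟨(hang z hz).ge, by rw [hang z hz]; linarith⟩).symm
  have h := (abs_le.1 (abs_angleCount_sub_le h0 hn (b := a + ε) ha (by linarith)
    (by linarith [min_le_left (1 - a) (η / P.natDegree)]))).2
  have h2 : ε * P.natDegree ≤ η :=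
    (le_div_iff₀ hnR).1 (min_le_right (1 - a) (η / P.natDegree))
  have : (S.card : ℝ) ≤ angleCount P a (a + ε) := Nat.cast_le.2 hle
  rw [add_sub_cancel_left] at h
  linarith

open scoped Classical in
/-- **Real roots.** -/
theorem card_real_roots_le (hn : 0 < P.natDegree) :
    ((P.roots.filter fun z => z.im = 0).card : ℝ) ≤
      208 * Real.sqrt (P.natDegree * logRatio P) := by
  set S := P.roots.filter fun z => z.im = 0 with hS
  have h1 : ((S.filter fun z => 0 < z.re).card : ℝ) ≤
      104 * Real.sqrt (P.natDegree * logRatio P) := by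
    refine single_angle_le h0 hn le_rfl one_pos
      ((Multiset.filter_le _ _).trans (Multiset.filter_le _ _)) fun z hz => ?_
    simp only [hS, Multiset.mem_filter] at hz
    rw [Complex.arg_eq_zero_iff.2 ⟨hz.2.le, hz.1.2⟩, zero_div, Int.fract_zero]
  have h2 : ((S.filter fun z => ¬ 0 < z.re).card : ℝ) ≤
      104 * Real.sqrt (P.natDegree * logRatio P) := by
    refine single_angle_le h0 hn (a := 1 / 2) (by norm_num) (by norm_num)
      ((Multiset.filter_le _ _).trans (Multiset.filter_le _ _)) fun z hz => ?_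
    simp only [hS, Multiset.mem_filter] at hz
    have hre : z.re < 0 := lt_of_le_of_ne (not_lt.1 hz.2) fun e =>
      root_ne_zero h0 hz.1.1 (Complex.ext e hz.1.2)
    rw [Complex.arg_eq_pi_iff.2 ⟨hre, hz.1.2⟩, show Real.pi / (2 * Real.pi) = 1 / 2 by field_simp]
    exact Int.fract_eq_self.2 ⟨by norm_num, by norm_num⟩
  rw [← Multiset.filter_add_not (fun z : ℂ => 0 < z.re) S, Multiset.card_add, Nat.cast_add]
  linarith

end Fermat.Agent.RootAngles

end
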